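import Fermat.Agent.S44.ESide.Tres

/-!
# S44 / ESide / TresGrp : TRES in the GROUP FORM of helper91 #2382 (3)

`Gam ≤ G_ℚ` fixing `ζ`; every nonzero `Gam`-fixed `x` has `v x ∈ (v λ)^ℤ` (`λ = ζ - 1`); `ϖ ≠ 0` with `g ϖ ∈ μ_p ϖ` for `g ∈ Gam`, `v ϖ ∉ (v λ)^ℤ`;
`a ∈ A` fixed by every `g ∈ Gam` fixing `ϖ`.  Then `v (g a - a) < v λ` for all `g ∈ Gam`.

PROOF.  Some `σ ∈ Gam` has `σ ϖ = ζ ϖ`.  `S n := σ^n a` is `p`-periodic and `g (S n) = S (n + e)` if `g ϖ = ζ^e ϖ`.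
`b_i := p⁻¹ ∑_{j<p} ζ^(-ij) S j`: `∑_{i<p} b_i = a`, `g b_i = ζ^(ie) b_i`; `c_i := b_i / ϖ^i` is `Gam`-fixed.  Apply `tres_core`.
-/

set_option autoImplicit false

namespace Fermat.Agent.S44.ESide

open Fermat.Agent.S13 (Qb GQ)
open Finset

/-- shift invariance of the sum of a periodic function over a period. -/
theorem TresGrp_sum_shift {M : Type*} [AddCommGroup M] (p : ℕ) (F : ℕ → M)
    (hF : ∀ n, F (n + p) = F n) (e : ℕ) :
    ∑ j ∈ range p, F (j + e) = ∑ j ∈ range p, F j := by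
  induction e with
  | zero => simp
  | succ e ih =>
    rw [← ih]
    have h1 := sum_range_succ (fun j => F (j + e)) p
    have h2 := sum_range_succ' (fun j => F (j + e)) p
    have h3 : F (p + e) = F (0 + e) := by rw [add_comm p e, hF, zero_add]
    rw [h1, h3] at h2
    have h4 := add_right_cancel h2
    rw [h4]
    refine sum_congr rfl fun j _ => ?_
    congr 1
    ring

/-- orthogonality of characters of `ℤ/p`. -/
theorem TresGrp_geom {p : ℕ} {ζ : Qb} (hζ : IsPrimitiveRoot ζ p) {j : ℕ}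
    (hj0 : j ≠ 0) (hjp : j < p) : ∑ i ∈ range p, (ζ⁻¹) ^ (i * j) = 0 := by
  have hμ : (ζ⁻¹) ^ j ≠ 1 := by
    intro h
    rw [inv_pow, inv_eq_one] at h
    have := (hζ.pow_eq_one_iff_dvd j).1 h
    exact absurd (Nat.le_of_dvd (Nat.pos_of_ne_zero hj0) this) (by omega)
  have h1 := geom_sum_mul ((ζ⁻¹) ^ j) p
  have h2 : ((ζ⁻¹) ^ j) ^ p = 1 := by
    rw [← pow_mul, mul_comm, pow_mul, inv_pow, hζ.pow_eq_one, inv_one, one_pow]
  rw [h2, sub_self] at h1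
  have h3 := (mul_eq_zero.1 h1).resolve_right (sub_ne_zero.2 hμ)
  rw [← h3]
  refine sum_congr rfl fun i _ => ?_
  rw [← pow_mul, mul_comm]

theorem tres_group (A : ValuationSubring Qb) {p : ℕ} (hp : p.Prime) (ζ : Qb)
    (hζ : IsPrimitiveRoot ζ p) (Gam : Subgroup GQ) (hGζ : ∀ g ∈ Gam, g ζ = ζ)
    (hVG : ∀ x : Qb, x ≠ 0 → (∀ g ∈ Gam, g x = x) →
      ∃ n : ℤ, A.valuation x = A.valuation (ζ - 1) ^ n)
    (ϖ : Qb) (hϖ0 : ϖ ≠ 0) (hϖ : ∀ g ∈ Gam, ∃ i : ℕ, g ϖ = ζ ^ i * ϖ)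
    (hno : ¬ ∃ n : ℤ, A.valuation ϖ = A.valuation (ζ - 1) ^ n)
    (a : Qb) (haA : a ∈ A) (hfix : ∀ g ∈ Gam, g ϖ = ϖ → g a = a)
    (g : GQ) (hg : g ∈ Gam) : A.valuation (g a - a) < A.valuation (ζ - 1) := by
  classical
  have hζ0 : ζ ≠ 0 := hζ.ne_zero hp.ne_zero
  have hζp : ζ ^ p = 1 := hζ.pow_eq_one
  have hpQ : (p : Qb) ≠ 0 := Nat.cast_ne_zero.2 hp.ne_zero
  -- powers
  have hpow : ∀ (h : GQ), h ∈ Gam → ∀ i : ℕ, h ϖ = ζ ^ i * ϖ → ∀ n : ℕ,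
      (h ^ n) ϖ = ζ ^ (i * n) * ϖ := by
    intro h hh i hi n
    induction n with
    | zero => simp
    | succ n ih =>
      rw [pow_succ, AlgEquiv.mul_apply, hi, map_mul, map_pow,
        show (h ^ n) ζ = ζ from hGζ _ (Gam.pow_mem hh n), ih, Nat.mul_succ, pow_add]
      ring
  -- Step 1
  obtain ⟨σ, hσ, hσϖ⟩ : ∃ σ ∈ Gam, σ ϖ = ζ * ϖ := by
    by_cases hall : ∀ h ∈ Gam, h ϖ = ϖ
    · exact absurd (hVG ϖ hϖ0 hall) hno
    · push Not at hall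
      obtain ⟨g0, hg0, hne⟩ := hall
      obtain ⟨i, hi⟩ := hϖ g0 hg0
      have hpi : ¬ p ∣ i := by
        intro hd
        apply hne
        rw [hi, (hζ.pow_eq_one_iff_dvd i).2 hd, one_mul]
      have hcop : Nat.Coprime i p := ((Nat.Prime.coprime_iff_not_dvd hp).2 hpi).symm
      obtain ⟨j, -, hj⟩ := Nat.exists_mul_mod_eq_one_of_coprime hcop hp.one_lt
      refine ⟨g0 ^ j, Gam.pow_mem hg0 j, ?_⟩
      rw [hpow g0 hg0 i hi j, pow_eq_pow_mod _ hζp, hj, pow_one]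
  have hσn : ∀ n : ℕ, (σ ^ n) ϖ = ζ ^ n * ϖ := by
    intro n
    have := hpow σ hσ 1 (by rw [pow_one]; exact hσϖ) n
    rwa [one_mul] at this
  -- Step 3
  have hkey : ∀ h ∈ Gam, ∀ n : ℕ, h ϖ = ζ ^ n * ϖ → h a = (σ ^ n) a := by
    intro h hh n hn
    have hmem : (σ ^ n)⁻¹ * h ∈ Gam := Gam.mul_mem (Gam.inv_mem (Gam.pow_mem hσ n)) hh
    have h1 : ((σ ^ n)⁻¹ * h) ϖ = ϖ := by
      rw [AlgEquiv.mul_apply, hn, ← hσn n, ← AlgEquiv.mul_apply, inv_mul_cancel, AlgEquiv.one_apply]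
    have h2 := hfix _ hmem h1
    have h3 : (σ ^ n) (((σ ^ n)⁻¹ * h) a) = h a := by
      rw [← AlgEquiv.mul_apply, mul_inv_cancel_left]
    rw [← h3, h2]
  set S : ℕ → Qb := fun n => (σ ^ n) a with hS
  have hSper : ∀ n, S (n + p) = S n := by
    intro n
    refine hkey _ (Gam.pow_mem hσ _) n ?_
    rw [hσn, pow_add, hζp, mul_one]
  have hgS : ∀ h ∈ Gam, ∀ e : ℕ, h ϖ = ζ ^ e * ϖ → ∀ n, h (S n) = S (n + e) := by
    intro h hh e he n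
    show h ((σ ^ n) a) = _
    rw [← AlgEquiv.mul_apply]
    refine hkey _ (Gam.mul_mem hh (Gam.pow_mem hσ n)) (n + e) ?_
    rw [AlgEquiv.mul_apply, hσn, map_mul, map_pow, hGζ h hh, he, pow_add]
    ring
  -- Step 4
  set b : ℕ → Qb := fun i => (p : Qb)⁻¹ * ∑ j ∈ range p, (ζ⁻¹) ^ (i * j) * S j with hb
  have hsumb : ∑ i ∈ range p, b i = a := by
    simp only [hb]
    rw [← mul_sum, sum_comm]
    have h1 : ∀ j ∈ range p, ∑ i ∈ range p, (ζ⁻¹) ^ (i * j) * S j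
        = if j = 0 then (p : Qb) * a else 0 := by
      intro j hj
      rw [← sum_mul]
      split_ifs with h0
      · subst h0
        simp [hS]
      · rw [TresGrp_geom hζ h0 (mem_range.1 hj), zero_mul]
    rw [sum_congr rfl h1, sum_ite_eq' (range p) 0, if_pos (mem_range.2 hp.pos),
      inv_mul_cancel_left₀ hpQ]
  have hgb : ∀ h ∈ Gam, ∀ e : ℕ, h ϖ = ζ ^ e * ϖ → ∀ i, h (b i) = ζ ^ (i * e) * b i := by
    intro h hh e he i
    simp only [hb]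
    rw [map_mul, map_inv₀, map_natCast, map_sum, mul_left_comm]
    congr 1
    have hF : ∀ n, (ζ⁻¹) ^ (i * (n + p)) * S (n + p) = (ζ⁻¹) ^ (i * n) * S n := by
      intro n
      have h1 : (ζ⁻¹) ^ (i * p) = 1 := by
        rw [mul_comm, pow_mul, inv_pow, hζp, inv_one, one_pow]
      rw [hSper, mul_add, pow_add, h1, mul_one]
    rw [← TresGrp_sum_shift p (fun n => (ζ⁻¹) ^ (i * n) * S n) hF e, mul_sum]
    refine sum_congr rfl fun j _ => ?_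
    rw [map_mul, map_pow, map_inv₀, hGζ h hh, hgS h hh e he j, mul_add, pow_add, ← mul_assoc,
      ← mul_assoc]
    congr 1
    rw [mul_comm (ζ ^ (i * e)), mul_assoc, ← mul_pow, mul_inv_cancel₀ hζ0, one_pow, mul_one]
  -- Step 5, 6
  let K0 : Subfield Qb := (IntermediateField.fixedField Gam).toSubfield
  have hK0 : ∀ x : Qb, x ∈ K0 ↔ ∀ h ∈ Gam, h x = x := by
    intro x
    show x ∈ IntermediateField.fixedField Gam ↔ _
    rw [IntermediateField.mem_fixedField_iff]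
  have hc : ∀ i, b i / ϖ ^ i ∈ K0 := by
    intro i
    rw [hK0]
    intro h hh
    obtain ⟨e, he⟩ := hϖ h hh
    rw [map_div₀, map_pow, hgb h hh e he i, he, mul_pow, ← pow_mul, mul_comm e i,
      mul_div_mul_left _ _ (pow_ne_zero _ hζ0)]
  have hterm : ∀ (x : Qb) (i : ℕ), b i / ϖ ^ i * (x * ϖ) ^ i = x ^ i * b i := by
    intro x i
    rw [mul_pow]
    field_simp
  have ha : a = ∑ i ∈ range p, b i / ϖ ^ i * ϖ ^ i := by
    rw [← hsumb]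
    refine sum_congr rfl fun i _ => ?_
    rw [div_mul_cancel₀ _ (pow_ne_zero _ hϖ0)]
  obtain ⟨e, he⟩ := hϖ g hg
  have hga : g a = ∑ i ∈ range p, b i / ϖ ^ i * (ζ ^ e * ϖ) ^ i := by
    rw [← hsumb, map_sum]
    refine sum_congr rfl fun i _ => ?_
    rw [hgb g hg e he i, hterm, ← pow_mul, mul_comm e i]
  have hϖp : ϖ ^ p ∈ K0 := by
    rw [hK0]
    intro h hh
    obtain ⟨e', he'⟩ := hϖ h hh
    rw [map_pow, he', mul_pow, ← pow_mul, mul_comm e' p, pow_mul, hζp, one_pow, one_mul]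
  have hnd : ∀ x ∈ K0, x ≠ 0 → A.valuation (ϖ ^ p) ≠ A.valuation x ^ p := by
    intro x hx hx0 h
    rw [map_pow] at h
    have h1 := (pow_left_inj₀ zero_le zero_le hp.ne_zero).1 h
    obtain ⟨n, hn⟩ := hVG x hx0 ((hK0 x).1 hx)
    exact hno ⟨n, h1.trans hn⟩
  have hmain := tres_core A.valuation K0 hp ζ ϖ hζp (hζ.ne_one hp.one_lt) hϖp hϖ0 hnd
    (fun i => b i / ϖ ^ i) hc (by rw [← ha]; exact (A.valuation_le_one_iff a).2 haA) e
  rw [← ha, ← hga] at hmain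
  exact hmain

/-- `x = l^n * unit of A`, in terms of the valuation. -/
theorem val_eq_zpow_iff_unit (A : ValuationSubring Qb) {x l : Qb} (hx : x ≠ 0) (hl : l ≠ 0) (n : ℤ) :
    A.valuation x = A.valuation l ^ n ↔ (x / l ^ n ∈ A ∧ (x / l ^ n)⁻¹ ∈ A) := by
  have hvl : A.valuation l ^ n ≠ 0 := zpow_ne_zero _ ((Valuation.ne_zero_iff _).2 hl)
  have hz0 : x / l ^ n ≠ 0 := div_ne_zero hx (zpow_ne_zero _ hl)
  have hv0 : 0 < A.valuation (x / l ^ n) := zero_lt_iff.2 ((Valuation.ne_zero_iff _).2 hz0)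
  have e : A.valuation (x / l ^ n) = A.valuation x / A.valuation l ^ n := by
    rw [map_div₀, map_zpow₀]
  constructor
  · intro h
    have h1 : A.valuation (x / l ^ n) = 1 := by rw [e, h, div_self hvl]
    refine ⟨(A.valuation_le_one_iff _).1 h1.le, (A.valuation_le_one_iff _).1 ?_⟩
    rw [map_inv₀, h1, inv_one]
  · rintro ⟨h1, h2⟩
    have a1 := (A.valuation_le_one_iff _).2 h1
    have a2 := (A.valuation_le_one_iff _).2 h2
    rw [map_inv₀, inv_le_one₀ hv0] at a2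
    have h3 := le_antisymm a1 a2
    rw [e, div_eq_one_iff_eq hvl] at h3
    exact h3

/-- **TRES, group form, membership version** (helper91 #2382 (3)). -/
theorem tres_group' (A : ValuationSubring Qb) {p : ℕ} (hp : p.Prime) (ζ : Qb)
    (hζ : IsPrimitiveRoot ζ p) (Gam : Subgroup GQ) (hGζ : ∀ g ∈ Gam, g ζ = ζ)
    (hVG : ∀ x : Qb, x ≠ 0 → (∀ g ∈ Gam, g x = x) →
      ∃ n : ℤ, x / (ζ - 1) ^ n ∈ A ∧ (x / (ζ - 1) ^ n)⁻¹ ∈ A)
    (ϖ : Qb) (hϖ0 : ϖ ≠ 0) (hϖ : ∀ g ∈ Gam, ∃ i : ℕ, g ϖ = ζ ^ i * ϖ)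
    (hno : ¬ ∃ n : ℤ, ϖ / (ζ - 1) ^ n ∈ A ∧ (ϖ / (ζ - 1) ^ n)⁻¹ ∈ A)
    (a : Qb) (haA : a ∈ A) (hfix : ∀ g ∈ Gam, g ϖ = ϖ → g a = a)
    (g : GQ) (hg : g ∈ Gam) : (g a - a) / (ζ - 1) ∈ A.nonunits := by
  have hl : ζ - 1 ≠ 0 := sub_ne_zero.2 (hζ.ne_one hp.one_lt)
  have h := tres_group A hp ζ hζ Gam hGζ
    (fun x hx0 hx => by
      obtain ⟨n, hn⟩ := hVG x hx0 hx
      exact ⟨n, (val_eq_zpow_iff_unit A hx0 hl n).2 hn⟩)
    ϖ hϖ0 hϖ
    (by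
      rintro ⟨n, hn⟩
      exact hno ⟨n, (val_eq_zpow_iff_unit A hϖ0 hl n).1 hn⟩)
    a haA hfix g hg
  rw [ValuationSubring.mem_nonunits_iff, map_div₀]
  exact (div_lt_one₀ (zero_lt_iff.2 ((Valuation.ne_zero_iff _).2 hl))).2 h

end Fermat.Agent.S44.ESide
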