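import Fermat.Agent.S44.ESide.Lam
import Fermat.Agent.S36.Base.Inertia
import Fermat.Agent.S05.Inertia
import Fermat.Agent.S13.Defs
import Fermat.Agent.S15.D.Deep

/-!
# S44 / ESide / VG : (H) of the blueprint #1827.   (TASK `S44/E-VG`, ~250 lines)

`A ∣ p`, `I = A.inertiaSubgroupIn ℚ`, `I1 = {s ∈ I : s ζ = ζ}`, `λ = ζ - 1`.
**`x ≠ 0` fixed by `I1`  ⟹  `v x ∈ (v λ)^ℤ`.**

PROOF.
1. `G := ↥I` acts on `Qb`; the orbit `O` of `x` is finite (all conjugates are roots of `minpoly ℚ x`).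
   `y := ∏_{z ∈ O} z` is fixed by `I` (`s` permutes `O`; cf. `S13/LadderApp.lean prod_mem_range_of_stable`), and
   `v z = v x` for `z ∈ O` (`S05.val_sigma A σ hσ x`; needs `Algebra.IsAlgebraic ℚ Qb`, see `S13/LocFrey.lean inert_of_mem_inertia`).
   So `v y = v x ^ d`, `d = card O ≥ 1`.
2. `y ∈ S36.Base.L0 A` (`mem_L0_iff`), so `S36.Base.exists_zpow_mul_mem hp hA` gives `k : ℤ` with `y p^k` a unit of `A`:
   `v y = v p ^ (-k)` (`A.valuation_le_one_iff`, both for `y p^k` and its inverse).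
3. `d ∣ p - 1`:  `χ : G →* (ZMod p)ˣ` the mod `p` cyclotomic character (`ES.D.cyc p` restricted, `ES.D.cyc_spec`; or
   `modularCyclotomicCharacter`); `χ s = 1 ↔ s ζ = ζ`; `ker χ ≤ stabilizer G x`;
   `Subgroup.index_dvd_of_le`, `Subgroup.index_ker`, `Subgroup.card_subgroup_dvd_card`, `ZMod.card_units`,
   `MulAction.index_stabilizer` (`(stabilizer G x).index = (orbit G x).ncard`).
4. `p - 1 = d c`, `v p = v λ ^ (p - 1)` (`val_sub_one_pow`): `v x ^ d = (v λ ^ (-(k c))) ^ d`, and `t ↦ t ^ d` is injective on `Γ₀`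
   (`pow_left_injective`-type lemma for linearly ordered groups with zero: `pow_left_inj₀ zero_le zero_le`).
(`Qbar` of `S55/Places` and `Qb` of `S13` are both `AlgebraicClosure ℚ`.)

IMPLEMENTATION: steps 1-3 are `S15.D.val_pow_of_fixed` (sorry-free), `val_of_fixed_inertia` is `S15.D.val_L0`.
-/

set_option autoImplicit false

namespace Fermat.Agent.S44.ESide

open Fermat.Agent.S13 (Qb GQ)

theorem vg (A : ValuationSubring Qb) {p : ℕ} (hp : p.Prime) (hA : A.LiesOverPrime p)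
    (ζ : Qb) (hζ : IsPrimitiveRoot ζ p) (x : Qb) (hx0 : x ≠ 0)
    (hx : ∀ s ∈ A.inertiaSubgroupIn ℚ, s ζ = ζ → s x = x) :
    ∃ n : ℤ, A.valuation x = A.valuation (ζ - 1) ^ n := by
  obtain ⟨k, hk⟩ := Fermat.Agent.S15.D.val_pow_of_fixed hp hA hx0
    (fun t ht h => hx t ht (h ζ hζ.pow_eq_one))
  refine ⟨k, ?_⟩
  have h1 : p - 1 ≠ 0 := by have := hp.two_le; omega
  have h2 : A.valuation (p : Qb) ^ k = (A.valuation (ζ - 1) ^ k) ^ (p - 1) := by
    rw [← val_sub_one_pow (v := A.valuation) hp hζ, ← zpow_natCast (A.valuation (ζ - 1)),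
      ← zpow_natCast (A.valuation (ζ - 1) ^ k), ← zpow_mul, ← zpow_mul, mul_comm]
  rw [h2] at hk
  exact (pow_left_inj₀ zero_le zero_le h1).1 hk

/-- elements fixed by the whole inertia group: the value is a power of `v p`
(reformulation of `S36.Base.exists_zpow_mul_mem`). -/
theorem val_of_fixed_inertia (A : ValuationSubring Qb) {p : ℕ} (hp : p.Prime)
    (hA : A.LiesOverPrime p) (x : Qb) (hx0 : x ≠ 0)
    (hx : ∀ s ∈ A.inertiaSubgroupIn ℚ, s x = x) :
    ∃ n : ℤ, A.valuation x = A.valuation (p : Qb) ^ n :=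
  Fermat.Agent.S15.D.val_L0 hp hA (Fermat.Agent.S36.Base.mem_L0_iff.2 hx) hx0

end Fermat.Agent.S44.ESide
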