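import Mathlib

/-!
# S44 / ESide / Lam : the element `λ = ζ_p - 1`          (TASK `S44/E-Lam`, Mathlib only, ~120 lines)

`K` a field, `v` any valuation on `K`, `ζ ∈ K` a primitive `p`-th root of unity (`p` prime).

* `val_zeta_eq_one` : `v ζ = 1` (`v ζ ^ p = 1` in a linearly ordered group with zero:
  `pow_eq_one_iff_of_nonneg` / `pow_left_injective`).
* `val_pow_sub_one_le` : `ζ ^ i - 1 = (ζ - 1) (1 + ζ + ... + ζ^(i-1))` (`mul_geom_sum` / `geom_sum_mul`),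
  the second factor has `v ≤ 1` (`Valuation.map_sum_le`).
* `val_pow_sub_one_eq` : for `p ∤ i`, `ζ = (ζ ^ i) ^ j` for some `j` (`i j ≡ 1 mod p`), so both inequalities hold.
* `val_sub_one_pow` : `p = Φ_p(1) = ∏_{μ primitive} (1 - μ)` (`Polynomial.eval_one_cyclotomic_prime`,
  `Polynomial.cyclotomic_eq_prod_X_sub_primitiveRoots`), every primitive `μ` is `ζ ^ i`, `p ∤ i`
  (`IsPrimitiveRoot.isPrimitiveRoot_iff` / `eq_pow_of_mem_rootsOfUnity`), `card (primitiveRoots p K) = φ p = p - 1`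
  (`IsPrimitiveRoot.card_primitiveRoots`, `Nat.totient_prime`).
-/

set_option autoImplicit false

namespace Fermat.Agent.S44.ESide

variable {K : Type*} [Field K] {Γ₀ : Type*} [LinearOrderedCommGroupWithZero Γ₀]
  (v : Valuation K Γ₀)

theorem val_zeta_eq_one {n : ℕ} (hn : n ≠ 0) {ζ : K} (hζ : ζ ^ n = 1) : v ζ = 1 := by
  have h : v ζ ^ n = 1 := by rw [← map_pow, hζ, map_one]
  exact (pow_eq_one_iff_of_nonneg zero_le hn).1 h

theorem val_pow_sub_one_le {ζ : K} (hζ : v ζ ≤ 1) (i : ℕ) : v (ζ ^ i - 1) ≤ v (ζ - 1) := by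
  rw [← geom_sum_mul, map_mul]
  refine mul_le_of_le_one_left' (Valuation.map_sum_le v fun j _ => ?_)
  rw [map_pow]
  exact pow_le_one' hζ j

theorem val_pow_sub_one_eq {p : ℕ} (hp : p.Prime) {ζ : K} (hζ : ζ ^ p = 1) {i : ℕ}
    (hi : ¬ p ∣ i) : v (ζ ^ i - 1) = v (ζ - 1) := by
  have h1 : v ζ = 1 := val_zeta_eq_one v hp.ne_zero hζ
  refine le_antisymm (val_pow_sub_one_le v h1.le i) ?_
  have hcop : Nat.Coprime i p := ((Nat.Prime.coprime_iff_not_dvd hp).2 hi).symm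
  obtain ⟨m, -, hm⟩ := Nat.exists_mul_mod_eq_one_of_coprime hcop hp.one_lt
  have h2 : (ζ ^ i) ^ m = ζ := by
    rw [← pow_mul, ← Nat.div_add_mod (i * m) p, hm, pow_add, pow_mul, hζ, one_pow, one_mul, pow_one]
  have h3 := val_pow_sub_one_le v (ζ := ζ ^ i) (by rw [map_pow, h1, one_pow]) m
  rwa [h2] at h3

theorem val_sub_one_pow {p : ℕ} (hp : p.Prime) {ζ : K} (hζ : IsPrimitiveRoot ζ p) :
    v (ζ - 1) ^ (p - 1) = v (p : K) := by
  have : Fact p.Prime := ⟨hp⟩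
  have h1 : (p : K) = ∏ μ ∈ primitiveRoots p K, (1 - μ) := by
    have h := Polynomial.eval_one_cyclotomic_prime (R := K) (p := p)
    rw [Polynomial.cyclotomic_eq_prod_X_sub_primitiveRoots hζ, Polynomial.eval_prod] at h
    rw [← h]
    exact Finset.prod_congr rfl fun μ _ => by simp
  rw [h1, map_prod]
  have h2 : ∀ μ ∈ primitiveRoots p K, v (1 - μ) = v (ζ - 1) := by
    intro μ hμ
    have hμ' : IsPrimitiveRoot μ p := (mem_primitiveRoots hp.pos).1 hμ
    obtain ⟨i, -, rfl⟩ := hζ.eq_pow_of_pow_eq_one hμ'.pow_eq_one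
    have hi : ¬ p ∣ i := by
      rintro ⟨k, rfl⟩
      apply hμ'.ne_one hp.one_lt
      rw [pow_mul, hζ.pow_eq_one, one_pow]
    rw [Valuation.map_sub_swap, val_pow_sub_one_eq v hp hζ.pow_eq_one hi]
  rw [Finset.prod_congr rfl h2, Finset.prod_const, hζ.card_primitiveRoots, Nat.totient_prime hp]

/-- consequence: `0 < v λ`, and `v λ < 1` as soon as `v p < 1`. -/
theorem val_sub_one_lt_one {p : ℕ} (hp : p.Prime) {ζ : K} (hζ : IsPrimitiveRoot ζ p)
    (hvp : v (p : K) < 1) : v (ζ - 1) < 1 := by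
  rw [← val_sub_one_pow v hp hζ] at hvp
  have hp1 : p - 1 ≠ 0 := by have := hp.two_le; omega
  exact (pow_lt_one_iff hp1).1 hvp

theorem val_sub_one_ne_zero {p : ℕ} (hp : p.Prime) {ζ : K} (hζ : IsPrimitiveRoot ζ p) :
    v (ζ - 1) ≠ 0 := by
  rw [Valuation.ne_zero_iff]
  exact sub_ne_zero.2 (hζ.ne_one hp.one_lt)

end Fermat.Agent.S44.ESide
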