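import Fermat.Agent.S44.ESide.Tres
import Fermat.Agent.S44.ESide.VG
import Fermat.Agent.S44.ESide.Peu.Frey

/-!
# S44 / ESide / T5 : the output of the E-side  (step (T5) of the blueprint #1758)

`P` a Frey package, `p = P.p ∣ abc`, `A ∣ p`, `I` the inertia group of `A`, `I1 = {s ∈ I : s ζ = ζ}`, `λ = ζ - 1`.
`K0 ⊆ ℚ̄` a field containing `ζ`, fixed pointwise by `I1`; `ϖ ^ p ∈ K0`; for `g` fixing `K0`: `g ϖ = ϖ ↔ g = 1` on `E[p]`.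
**Then `v ϖ ∈ (v λ)^ℤ`** (i.e. `p ∣ v_λ(β)`, `β = ϖ ^ p`): the extension `K0(E[p]) / K0` is "peu ramifiée".
-/

set_option autoImplicit false

namespace Fermat.Agent.S44.ESide

open WeierstrassCurve WeierstrassCurve.Affine WeierstrassCurve.Affine.Point
open Fermat.Agent.S13 (Qb GQ)

/-- Kummer theory: `g ϖ = ζ ^ c * ϖ`. -/
theorem exists_pow_mul {p : ℕ} (hp : 0 < p) {ζ ϖ : Qb} (hζ : IsPrimitiveRoot ζ p) (hϖ0 : ϖ ≠ 0)
    (g : GQ) (hg : g (ϖ ^ p) = ϖ ^ p) : ∃ c : ℕ, g ϖ = ζ ^ c * ϖ := by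
  haveI : NeZero p := ⟨hp.ne'⟩
  have h1 : (g ϖ / ϖ) ^ p = 1 := by
    rw [div_pow, ← map_pow, hg, div_self (pow_ne_zero p hϖ0)]
  obtain ⟨c, -, hc⟩ := hζ.eq_pow_of_pow_eq_one h1
  exact ⟨c, by rw [hc, div_mul_cancel₀ _ hϖ0]⟩

theorem pow_apply_of {ζ ϖ : Qb} {s : GQ} {c : ℕ} (hsζ : s ζ = ζ) (hs : s ϖ = ζ ^ c * ϖ) (k : ℕ) :
    (s ^ k) ϖ = ζ ^ (c * k) * ϖ := by
  induction k with
  | zero => simp
  | succ k ih =>
    rw [pow_succ', AlgEquiv.mul_apply, ih, map_mul, map_pow, hsζ, hs, ← mul_assoc, ← pow_add]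
    congr 2

theorem pow_fix_of {S : Set Qb} {s : GQ} (hs : ∀ x ∈ S, s x = x) (k : ℕ) :
    ∀ x ∈ S, (s ^ k) x = x := by
  induction k with
  | zero => intro x _; rfl
  | succ k ih =>
    intro x hx
    rw [pow_succ', AlgEquiv.mul_apply, ih x hx, hs x hx]

theorem t5 (P : FreyPackage) (hpabc : (P.p : ℤ) ∣ P.a * P.b * P.c)
    (A : ValuationSubring Qb) (hA : A.LiesOverPrime P.p)
    (K0 : IntermediateField ℚ Qb) (ζ : Qb) (hζ : IsPrimitiveRoot ζ P.p) (hζK : ζ ∈ K0)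
    (hK0 : ∀ s ∈ A.inertiaSubgroupIn ℚ, s ζ = ζ → ∀ x ∈ K0, s x = x)
    (ϖ : Qb) (hϖ0 : ϖ ≠ 0) (hϖ : ϖ ^ P.p ∈ K0)
    (hker : ∀ g : GQ, (∀ x ∈ K0, g x = x) →
      (g ϖ = ϖ ↔ ∀ R : (P.freyCurve⁄Qb).Point, P.p • R = 0 → g • R = R)) :
    ∃ n : ℤ, A.valuation ϖ = A.valuation (ζ - 1) ^ n := by
  have hp : P.p.Prime := P.pp
  haveI : NeZero P.p := ⟨hp.ne_zero⟩
  by_cases hnd : ∀ x ∈ K0, x ≠ 0 → A.valuation (ϖ ^ P.p) ≠ A.valuation x ^ P.p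
  · by_cases hall : ∀ s ∈ A.inertiaSubgroupIn ℚ, s ζ = ζ → s ϖ = ϖ
    · exact vg A hp hA ζ hζ ϖ hϖ0 hall
    · exfalso
      push Not at hall
      obtain ⟨s₁, hs₁, hs₁ζ, hs₁ϖ⟩ := hall
      have hfixK : ∀ x ∈ K0, s₁ x = x := hK0 s₁ hs₁ hs₁ζ
      obtain ⟨c₁, hc₁⟩ := exists_pow_mul hp.pos hζ hϖ0 s₁ (hfixK _ hϖ)
      have hc₁p : ¬ P.p ∣ c₁ := by
        intro hdvd
        apply hs₁ϖ
        rw [hc₁, (hζ.pow_eq_one_iff_dvd c₁).mpr hdvd, one_mul]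
      have hmove : ∃ R : (P.freyCurve⁄Qb).Point, P.p • R = 0 ∧ s₁ • R ≠ R := by
        by_contra hcon
        push Not at hcon
        exact hs₁ϖ ((hker s₁ hfixK).mpr hcon)
      have hpow : ∀ R : (P.freyCurve⁄Qb).Point, P.p • R = 0 → (s₁ ^ P.p) • R = R := by
        refine (hker (s₁ ^ P.p) (pow_fix_of (S := K0) hfixK P.p)).mp ?_
        rw [pow_apply_of hs₁ζ hc₁, (hζ.pow_eq_one_iff_dvd _).mpr (dvd_mul_left _ _), one_mul]
      have hnorm : ∀ t ∈ A.inertiaSubgroupIn ℚ, ∃ k : ℕ,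
          ∀ R : (P.freyCurve⁄Qb).Point, P.p • R = 0 → (t⁻¹ * s₁ * t) • R = (s₁ ^ k) • R := by
        intro t ht
        have hu : t⁻¹ * s₁ * t ∈ A.inertiaSubgroupIn ℚ :=
          Subgroup.mul_mem _ (Subgroup.mul_mem _ (Subgroup.inv_mem _ ht) hs₁) ht
        have huζ : (t⁻¹ * s₁ * t) ζ = ζ := by
          obtain ⟨m, -, hm⟩ := hζ.eq_pow_of_pow_eq_one
            (show (t ζ) ^ P.p = 1 by rw [← map_pow, hζ.pow_eq_one, map_one])
          rw [AlgEquiv.mul_apply, AlgEquiv.mul_apply, ← hm, map_pow, hs₁ζ, hm]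
          show (t⁻¹ * t) ζ = ζ
          rw [inv_mul_cancel]; rfl
        have hufix : ∀ x ∈ K0, (t⁻¹ * s₁ * t) x = x := hK0 _ hu huζ
        obtain ⟨c, hc⟩ := exists_pow_mul hp.pos hζ hϖ0 (t⁻¹ * s₁ * t) (hufix _ hϖ)
        -- solve `c₁ k ≡ c mod p`
        obtain ⟨k, hk⟩ : ∃ k : ℕ, ζ ^ (c₁ * k) = ζ ^ c := by
          haveI : Fact P.p.Prime := ⟨hp⟩
          have hc₁' : (c₁ : ZMod P.p) ≠ 0 := by
            rwa [Ne, ZMod.natCast_eq_zero_iff]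
          refine ⟨((c₁ : ZMod P.p)⁻¹ * c).val, ?_⟩
          have hfin : IsOfFinOrder ζ := isOfFinOrder_iff_pow_eq_one.mpr ⟨P.p, hp.pos, hζ.pow_eq_one⟩
          rw [hfin.pow_eq_pow_iff_modEq, ← hζ.eq_orderOf, ← ZMod.natCast_eq_natCast_iff]
          push_cast
          rw [ZMod.natCast_zmod_val, mul_inv_cancel_left₀ hc₁']
        refine ⟨k, ?_⟩
        have hg : ∀ x ∈ K0, ((s₁ ^ k)⁻¹ * (t⁻¹ * s₁ * t)) x = x := by
          intro x hx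
          rw [AlgEquiv.mul_apply, hufix x hx]
          have h1 := pow_fix_of (S := K0) hfixK k x hx
          conv_lhs => rw [← h1]
          show ((s₁ ^ k)⁻¹ * s₁ ^ k) x = x
          rw [inv_mul_cancel]; rfl
        have hgϖ : ((s₁ ^ k)⁻¹ * (t⁻¹ * s₁ * t)) ϖ = ϖ := by
          rw [AlgEquiv.mul_apply, hc, ← hk, ← pow_apply_of hs₁ζ hc₁ k]
          show ((s₁ ^ k)⁻¹ * s₁ ^ k) ϖ = ϖ
          rw [inv_mul_cancel]; rfl
        intro R hR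
        have h2 := (hker _ hg).mp hgϖ R hR
        rw [mul_smul] at h2
        have h3 := congrArg (fun Q => (s₁ ^ k) • Q) h2
        simpa only [smul_inv_smul] using h3
      obtain ⟨a, haA, hafix, hbound⟩ := epeu P hpabc A hA s₁ hs₁ hmove hpow hnorm
      have hlt := tres A K0 hp ζ ϖ hζ hζK hϖ hϖ0 hnd a haA
        (fun g hg hgϖ => hafix g ((hker g hg).mp hgϖ)) s₁ hfixK
      have h1 : A.valuation (s₁ a - a) ^ (P.p - 1) < A.valuation (ζ - 1) ^ (P.p - 1) :=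
        pow_lt_pow_left₀ hlt zero_le (by have := P.hp5; omega)
      rw [val_sub_one_pow A.valuation hp hζ] at h1
      exact absurd hbound (not_le.mpr h1)
  · push Not at hnd
    obtain ⟨x, hxK, hx0, hx⟩ := hnd
    obtain ⟨n, hn⟩ := vg A hp hA ζ hζ x hx0 (fun s hs hsζ => hK0 s hs hsζ x hxK)
    refine ⟨n, ?_⟩
    rw [← hn]
    rw [map_pow] at hx
    exact (pow_left_inj₀ zero_le zero_le hp.ne_zero).mp hx

end Fermat.Agent.S44.ESide
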