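import Fermat.Agent.S44.ESide.T5
import Fermat.Agent.S44.ESide.TresGrp

/-!
# S44 / ESide / T5g : the output of the E-side, GROUP FORM (no fields; for `Top` of helper91 #2382)

`P` a Frey package, `p = P.p ∣ abc`, `A ∣ p`, `I` the inertia group of `A`, `I1 = {s ∈ I : s ζ = ζ}`, `λ = ζ - 1`.
`ϖ ≠ 0` with `s ϖ ∈ μ_p ϖ` for `s ∈ I1`, and for `s ∈ I1`: `s ϖ = ϖ ↔ s = 1` on `E[p]`.
**Then `v ϖ ∈ (v λ)^ℤ`.**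
-/

set_option autoImplicit false

namespace Fermat.Agent.S44.ESide

open WeierstrassCurve WeierstrassCurve.Affine WeierstrassCurve.Affine.Point
open Fermat.Agent.S13 (Qb GQ)

/-- `I₁` as a subgroup. -/
def inertiaOne (A : ValuationSubring Qb) (ζ : Qb) : Subgroup GQ where
  carrier := {s | s ∈ A.inertiaSubgroupIn ℚ ∧ s ζ = ζ}
  mul_mem' := by
    rintro a b ⟨ha, ha'⟩ ⟨hb, hb'⟩
    exact ⟨mul_mem ha hb, by rw [AlgEquiv.mul_apply, hb', ha']⟩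
  one_mem' := ⟨one_mem _, rfl⟩
  inv_mem' := by
    rintro a ⟨ha, ha'⟩
    refine ⟨inv_mem ha, ?_⟩
    have : a⁻¹ (a ζ) = ζ := by
      rw [← AlgEquiv.mul_apply, inv_mul_cancel, AlgEquiv.one_apply]
    rwa [ha'] at this

theorem t5g (P : FreyPackage) (hpabc : (P.p : ℤ) ∣ P.a * P.b * P.c)
    (A : ValuationSubring Qb) (hA : A.LiesOverPrime P.p)
    (ζ : Qb) (hζ : IsPrimitiveRoot ζ P.p)
    (ϖ : Qb) (hϖ0 : ϖ ≠ 0)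
    (hϖ : ∀ s ∈ A.inertiaSubgroupIn ℚ, s ζ = ζ → ∃ i : ℕ, s ϖ = ζ ^ i * ϖ)
    (hker : ∀ s ∈ A.inertiaSubgroupIn ℚ, s ζ = ζ →
      (s ϖ = ϖ ↔ ∀ R : (P.freyCurve⁄Qb).Point, P.p • R = 0 → s • R = R)) :
    ∃ n : ℤ, A.valuation ϖ = A.valuation (ζ - 1) ^ n := by
  have hp : P.p.Prime := P.pp
  haveI : NeZero P.p := ⟨hp.ne_zero⟩
  by_contra hno
  have hall : ¬ ∀ s ∈ A.inertiaSubgroupIn ℚ, s ζ = ζ → s ϖ = ϖ :=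
    fun hall => hno (vg A hp hA ζ hζ ϖ hϖ0 hall)
  push Not at hall
  obtain ⟨s₁, hs₁, hs₁ζ, hs₁ϖ⟩ := hall
  obtain ⟨c₁, hc₁⟩ := hϖ s₁ hs₁ hs₁ζ
  have hc₁p : ¬ P.p ∣ c₁ := by
    intro hdvd
    apply hs₁ϖ
    rw [hc₁, (hζ.pow_eq_one_iff_dvd c₁).mpr hdvd, one_mul]
  have hpowmem : ∀ k : ℕ, s₁ ^ k ∈ inertiaOne A ζ := fun k =>
    Subgroup.pow_mem (inertiaOne A ζ) (⟨hs₁, hs₁ζ⟩ : s₁ ∈ inertiaOne A ζ) k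
  have hmove : ∃ R : (P.freyCurve⁄Qb).Point, P.p • R = 0 ∧ s₁ • R ≠ R := by
    by_contra hcon
    push Not at hcon
    exact hs₁ϖ ((hker s₁ hs₁ hs₁ζ).mpr hcon)
  have hpow : ∀ R : (P.freyCurve⁄Qb).Point, P.p • R = 0 → (s₁ ^ P.p) • R = R := by
    refine (hker (s₁ ^ P.p) (hpowmem P.p).1 (hpowmem P.p).2).mp ?_
    rw [pow_apply_of hs₁ζ hc₁, (hζ.pow_eq_one_iff_dvd _).mpr (dvd_mul_left _ _), one_mul]
  have hnorm : ∀ t ∈ A.inertiaSubgroupIn ℚ, ∃ k : ℕ,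
      ∀ R : (P.freyCurve⁄Qb).Point, P.p • R = 0 → (t⁻¹ * s₁ * t) • R = (s₁ ^ k) • R := by
    intro t ht
    have hu : t⁻¹ * s₁ * t ∈ A.inertiaSubgroupIn ℚ :=
      Subgroup.mul_mem _ (Subgroup.mul_mem _ (Subgroup.inv_mem _ ht) hs₁) ht
    have huζ : (t⁻¹ * s₁ * t) ζ = ζ := by
      obtain ⟨m, -, hm⟩ := hζ.eq_pow_of_pow_eq_one
        (show (t ζ) ^ P.p = 1 by rw [← map_pow, hζ.pow_eq_one, map_one])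
      rw [AlgEquiv.mul_apply, AlgEquiv.mul_apply, ← hm, map_pow, hs₁ζ, hm]
      show (t⁻¹ * t) ζ = ζ
      rw [inv_mul_cancel]; rfl
    obtain ⟨c, hc⟩ := hϖ _ hu huζ
    obtain ⟨k, hk⟩ : ∃ k : ℕ, ζ ^ (c₁ * k) = ζ ^ c := by
      haveI : Fact P.p.Prime := ⟨hp⟩
      have hc₁' : (c₁ : ZMod P.p) ≠ 0 := by
        rwa [Ne, ZMod.natCast_eq_zero_iff]
      refine ⟨((c₁ : ZMod P.p)⁻¹ * c).val, ?_⟩
      have hfin : IsOfFinOrder ζ := isOfFinOrder_iff_pow_eq_one.mpr ⟨P.p, hp.pos, hζ.pow_eq_one⟩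
      rw [hfin.pow_eq_pow_iff_modEq, ← hζ.eq_orderOf, ← ZMod.natCast_eq_natCast_iff]
      push_cast
      rw [ZMod.natCast_zmod_val, mul_inv_cancel_left₀ hc₁']
    refine ⟨k, ?_⟩
    have hg : (s₁ ^ k)⁻¹ * (t⁻¹ * s₁ * t) ∈ inertiaOne A ζ :=
      Subgroup.mul_mem _ (Subgroup.inv_mem _ (hpowmem k)) ⟨hu, huζ⟩
    have hgϖ : ((s₁ ^ k)⁻¹ * (t⁻¹ * s₁ * t)) ϖ = ϖ := by
      rw [AlgEquiv.mul_apply, hc, ← hk, ← pow_apply_of hs₁ζ hc₁ k]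
      show ((s₁ ^ k)⁻¹ * s₁ ^ k) ϖ = ϖ
      rw [inv_mul_cancel]; rfl
    intro R hR
    have h2 := (hker _ hg.1 hg.2).mp hgϖ R hR
    rw [mul_smul] at h2
    have h3 := congrArg (fun Q => (s₁ ^ k) • Q) h2
    simpa only [smul_inv_smul] using h3
  obtain ⟨a, haA, hafix, hbound⟩ := epeu P hpabc A hA s₁ hs₁ hmove hpow hnorm
  have hlt := tres_group A hp ζ hζ (inertiaOne A ζ) (fun g hg => hg.2)
    (fun x hx0 hx => vg A hp hA ζ hζ x hx0 (fun s hs hsζ => hx s ⟨hs, hsζ⟩))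
    ϖ hϖ0 (fun g hg => hϖ g hg.1 hg.2) hno a haA
    (fun g hg hgϖ => hafix g ((hker g hg.1 hg.2).mp hgϖ)) s₁ ⟨hs₁, hs₁ζ⟩
  have h1 : A.valuation (s₁ a - a) ^ (P.p - 1) < A.valuation (ζ - 1) ^ (P.p - 1) :=
    pow_lt_pow_left₀ hlt zero_le (by have := P.hp5; omega)
  rw [val_sub_one_pow A.valuation hp hζ] at h1
  exact absurd hbound (not_le.mpr h1)

/-- membership form (`= S44.ValZ A (ζ - 1) ϖ`). -/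
theorem t5g' (P : FreyPackage) (hpabc : (P.p : ℤ) ∣ P.a * P.b * P.c)
    (A : ValuationSubring Qb) (hA : A.LiesOverPrime P.p)
    (ζ : Qb) (hζ : IsPrimitiveRoot ζ P.p)
    (ϖ : Qb) (hϖ0 : ϖ ≠ 0)
    (hϖ : ∀ s ∈ A.inertiaSubgroupIn ℚ, s ζ = ζ → ∃ i : ℕ, s ϖ = ζ ^ i * ϖ)
    (hker : ∀ s ∈ A.inertiaSubgroupIn ℚ, s ζ = ζ →
      (s ϖ = ϖ ↔ ∀ R : (P.freyCurve⁄Qb).Point, P.p • R = 0 → s • R = R)) :
    ∃ n : ℤ, ϖ / (ζ - 1) ^ n ∈ A ∧ (ϖ / (ζ - 1) ^ n)⁻¹ ∈ A := by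
  obtain ⟨n, hn⟩ := t5g P hpabc A hA ζ hζ ϖ hϖ0 hϖ hker
  exact ⟨n, (val_eq_zpow_iff_unit A hϖ0 (sub_ne_zero.2 (hζ.ne_one P.pp.one_lt)) n).1 hn⟩

end Fermat.Agent.S44.ESide
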