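import Fermat.Agent.S44.ESide.Lam
import Fermat.Agent.S13.Defs

/-!
# S44 / ESide / Tres : (F) of the blueprint #1827.  "Très ramifié" extensions move integers very little.

`K0 ⊆ K` a subfield, `ζ ≠ 1`, `ζ ^ p = 1`, `ϖ ^ p = β ∈ K0`, and `v β ∉ (v K0^×)^p`.

## `tres_core`      (TASK `S44/E-TresCore`, Mathlib only, ~200 lines)
`a = ∑_{i<p} c_i ϖ^i`, `c_i ∈ K0`, `v a ≤ 1`.
1. for `0 < d < p` and `x ∈ K0`, `x ≠ 0`: `v ϖ ^ d ≠ v x`.  [otherwise `v β ^ d = v x ^ p`; `r d + s p = 1`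
   (`Nat.Coprime`, `Int.gcd_eq_gcd_ab` or work with `d * r ≡ 1 mod p`, `r : ℕ`, `d * r = 1 + p * s`):
   `v β * v β ^ (p s) = v β ^ (d r) = (v x ^ r) ^ p`, so `v β = v (x ^ r / β ^ s) ^ p`, contradiction with `hnd`.]
2. the values `v (c_i ϖ^i)` of the NONZERO terms are pairwise distinct (1. with `x = c_i / c_j`).
3. hence `v a = max_i v (c_i ϖ^i)`: every term has `v ≤ 1`.  [general lemma `val_term_le_of_distinct`, to be proved first:
   a finite sum whose nonzero terms have pairwise distinct valuations has `v (sum) = sup`; induction on the Finset with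
   `Valuation.map_add_eq_of_lt_left/right`, or take the index of maximal value and `Valuation.map_sum_lt`.]
4. for `1 ≤ i < p`: `v (c_i ϖ^i) ≠ 1` if `c_i ≠ 0` (1. with `x = c_i⁻¹`), so `v (c_i ϖ^i) < 1`.
5. `∑ c_i (ζ^j ϖ)^i - a = ∑_{1 ≤ i < p} (ζ^(j i) - 1) c_i ϖ^i`, `v (ζ^(ji) - 1) ≤ v (ζ - 1)` (`val_pow_sub_one_le`),
   `0 < v (ζ - 1)`: `Valuation.map_sum_lt`.

## `tres`           (TASK `S44/E-TresGal`, ~200 lines)
`a ∈ A` fixed by every `g` fixing `K0` and `ϖ`.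
1. `E := IntermediateField.adjoin ℚ (K0 ∪ {ϖ})`; `a ∈ fixedField (fixingSubgroup E) = E` (`InfiniteGalois.fixedField_fixingSubgroup`;
   `IsGalois ℚ Qb`: `attribute [local instance] Fermat.Agent.S54.isAlgClosure_Qbar` or as in `S13/LadderApp.lean`
   `prod_mem_range_of_stable`).
2. `E ≤ (IntermediateField.adjoin K0 {ϖ}).restrictScalars ℚ`; `ϖ` is integral over `K0`, so
   `IntermediateField.adjoin_simple_toSubalgebra_of_integral`, `Algebra.adjoin_singleton_eq_range_aeval`: `a = aeval ϖ f`, `f ∈ K0[X]`;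
   `f %ₘ (X ^ p - C β)` has degree `< p` (`Polynomial.degree_modByMonic_lt`, `Polynomial.as_sum_range'`).
3. `(g ϖ / ϖ) ^ p = 1`, so `g ϖ = ζ ^ j * ϖ` (`IsPrimitiveRoot.eq_pow_of_pow_eq_one`); `g a = ∑ c_i (ζ^j ϖ)^i`.  Apply `tres_core`.
-/

set_option autoImplicit false

namespace Fermat.Agent.S44.ESide

open Fermat.Agent.S13 (Qb GQ)

section Core

variable {K : Type*} [Field K] {Γ₀ : Type*} [LinearOrderedCommGroupWithZero Γ₀]
  (v : Valuation K Γ₀)

theorem Tres_val_sum_aux {ι : Type*} (s : Finset ι) (f : ι → K)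
    (hd : ∀ i ∈ s, ∀ j ∈ s, i ≠ j → f i ≠ 0 → f j ≠ 0 → v (f i) ≠ v (f j)) :
    (∀ i ∈ s, v (f i) ≤ v (∑ j ∈ s, f j)) ∧
      (∑ j ∈ s, f j = 0 ∨ ∃ i ∈ s, v (f i) = v (∑ j ∈ s, f j)) := by
  classical
  induction s using Finset.induction_on with
  | empty => exact ⟨fun i hi => absurd hi (Finset.notMem_empty i), Or.inl rfl⟩
  | insert a s ha ih =>
    obtain ⟨ih1, ih2⟩ := ih (fun i hi j hj => hd i (Finset.mem_insert_of_mem hi) j
      (Finset.mem_insert_of_mem hj))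
    rw [Finset.sum_insert ha]
    by_cases hfa : f a = 0
    · rw [hfa, zero_add]
      refine ⟨fun i hi => ?_, ?_⟩
      · rcases Finset.mem_insert.1 hi with rfl | hi
        · rw [hfa, map_zero]; exact zero_le
        · exact ih1 i hi
      · rcases ih2 with h | ⟨i, hi, h⟩
        · exact Or.inl h
        · exact Or.inr ⟨i, Finset.mem_insert_of_mem hi, h⟩
    · have hva : v (f a) ≠ 0 := (Valuation.ne_zero_iff v).2 hfa
      have hne : v (f a) ≠ v (∑ j ∈ s, f j) := by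
        rcases ih2 with h | ⟨i, hi, h⟩
        · rw [h, map_zero]; exact hva
        · rw [← h]
          intro e
          have hfi : f i ≠ 0 := by
            rw [← Valuation.ne_zero_iff v, ← e]; exact hva
          have hai : a ≠ i := by rintro rfl; exact ha hi
          exact hd a (Finset.mem_insert_self a s) i (Finset.mem_insert_of_mem hi) hai hfa hfi e
      rw [Valuation.map_add_of_distinct_val v hne]
      refine ⟨fun i hi => ?_, Or.inr ?_⟩
      · rcases Finset.mem_insert.1 hi with rfl | hi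
        · exact le_max_left _ _
        · exact (ih1 i hi).trans (le_max_right _ _)
      · rcases le_total (v (f a)) (v (∑ j ∈ s, f j)) with hle | hle
        · rw [max_eq_right hle]
          rcases ih2 with h | ⟨i, hi, h⟩
          · rw [h, map_zero] at hle
            exact absurd (le_antisymm hle zero_le) hva
          · exact ⟨i, Finset.mem_insert_of_mem hi, h⟩
        · rw [max_eq_left hle]
          exact ⟨a, Finset.mem_insert_self a s, rfl⟩

/-- a finite sum whose nonzero terms have pairwise distinct valuations: every term is bounded by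
the valuation of the sum. -/
theorem val_term_le_of_distinct {ι : Type*} (s : Finset ι) (f : ι → K)
    (hd : ∀ i ∈ s, ∀ j ∈ s, i ≠ j → f i ≠ 0 → f j ≠ 0 → v (f i) ≠ v (f j)) :
    ∀ i ∈ s, v (f i) ≤ v (∑ j ∈ s, f j) :=
  (Tres_val_sum_aux v s f hd).1

/-- `v ϖ ^ d` is not the value of an element of `K0` for `0 < d < p`. -/
theorem Tres_val_pow_ne (K0 : Subfield K) {p : ℕ} (hp : p.Prime) (ϖ : K)
    (hϖ : ϖ ^ p ∈ K0) (hϖ0 : ϖ ≠ 0)
    (hnd : ∀ x ∈ K0, x ≠ 0 → v (ϖ ^ p) ≠ v x ^ p) {d : ℕ} (hd0 : 0 < d) (hdp : d < p)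
    {x : K} (hx : x ∈ K0) (hx0 : x ≠ 0) : v ϖ ^ d ≠ v x := by
  intro e
  have hcop : Nat.Coprime d p := (Nat.coprime_comm.1 ((Nat.Prime.coprime_iff_not_dvd hp).2
    (Nat.not_dvd_of_pos_of_lt hd0 hdp)))
  obtain ⟨r, -, hr⟩ := Nat.exists_mul_mod_eq_one_of_coprime hcop hp.one_lt
  have hdr : d * r = 1 + p * (d * r / p) := by
    have := Nat.div_add_mod (d * r) p
    omega
  set s := d * r / p with hs
  have hvϖ : v ϖ ≠ 0 := (Valuation.ne_zero_iff v).2 hϖ0
  have hβ0 : (ϖ ^ p) ^ s ≠ 0 := pow_ne_zero _ (pow_ne_zero _ hϖ0)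
  have hy : v (x ^ r / (ϖ ^ p) ^ s) = v ϖ := by
    rw [map_div₀, map_pow, map_pow, map_pow, ← e, ← pow_mul, ← pow_mul, hdr, pow_add, pow_one,
      mul_div_assoc, div_self (pow_ne_zero _ hvϖ), mul_one]
  refine hnd (x ^ r / (ϖ ^ p) ^ s) (div_mem (pow_mem hx r) (pow_mem hϖ s))
    (div_ne_zero (pow_ne_zero _ hx0) hβ0) ?_
  rw [hy, map_pow]

theorem tres_core (K0 : Subfield K) {p : ℕ} (hp : p.Prime) (ζ ϖ : K) (hζ : ζ ^ p = 1)
    (hζ1 : ζ ≠ 1) (hϖ : ϖ ^ p ∈ K0) (hϖ0 : ϖ ≠ 0)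
    (hnd : ∀ x ∈ K0, x ≠ 0 → v (ϖ ^ p) ≠ v x ^ p)
    (c : ℕ → K) (hc : ∀ i, c i ∈ K0)
    (hva : v (∑ i ∈ Finset.range p, c i * ϖ ^ i) ≤ 1) (j : ℕ) :
    v (∑ i ∈ Finset.range p, c i * (ζ ^ j * ϖ) ^ i - ∑ i ∈ Finset.range p, c i * ϖ ^ i)
      < v (ζ - 1) := by
  have hvϖ : v ϖ ≠ 0 := (Valuation.ne_zero_iff v).2 hϖ0
  have key := fun {d : ℕ} (hd0 : 0 < d) (hdp : d < p) {x : K} (hx : x ∈ K0) (hx0 : x ≠ 0) =>
    Tres_val_pow_ne v K0 hp ϖ hϖ hϖ0 hnd hd0 hdp hx hx0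
  -- the values of the nonzero terms are pairwise distinct
  have hlt : ∀ i j : ℕ, i < j → j < p → c i * ϖ ^ i ≠ 0 → c j * ϖ ^ j ≠ 0 →
      v (c i * ϖ ^ i) ≠ v (c j * ϖ ^ j) := by
    intro i j hij hjp hi hj e
    have hci : c i ≠ 0 := left_ne_zero_of_mul hi
    have hcj : c j ≠ 0 := left_ne_zero_of_mul hj
    have hvcj : v (c j) ≠ 0 := (Valuation.ne_zero_iff v).2 hcj
    refine key (d := j - i) (by omega) (by omega) (div_mem (hc i) (hc j))
      (div_ne_zero hci hcj) ?_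
    rw [map_div₀, eq_div_iff hvcj]
    have hji : v ϖ ^ j = v ϖ ^ (j - i) * v ϖ ^ i := by
      rw [← pow_add]; congr 1; omega
    rw [map_mul, map_mul, map_pow, map_pow, hji] at e
    have h2 : v (c i) * v ϖ ^ i = (v ϖ ^ (j - i) * v (c j)) * v ϖ ^ i := by
      rw [e, mul_comm (v ϖ ^ (j - i)) (v (c j)), mul_assoc]
    exact (mul_right_cancel₀ (pow_ne_zero _ hvϖ) h2).symm
  have hdist : ∀ i ∈ Finset.range p, ∀ j ∈ Finset.range p, i ≠ j → c i * ϖ ^ i ≠ 0 →
      c j * ϖ ^ j ≠ 0 → v (c i * ϖ ^ i) ≠ v (c j * ϖ ^ j) := by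
    intro i hi j hj hij h1 h2
    rcases lt_or_gt_of_ne hij with h | h
    · exact hlt i j h (Finset.mem_range.1 hj) h1 h2
    · exact (hlt j i h (Finset.mem_range.1 hi) h2 h1).symm
  have hle := val_term_le_of_distinct v (Finset.range p) (fun i => c i * ϖ ^ i) hdist
  have hterm : ∀ i, 0 < i → i < p → v (c i * ϖ ^ i) < 1 := by
    intro i hi0 hip
    refine lt_of_le_of_ne ((hle i (Finset.mem_range.2 hip)).trans hva) ?_
    intro e
    have hci : c i ≠ 0 := by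
      rintro h
      rw [h, zero_mul, map_zero] at e
      exact zero_ne_one e
    have hvci : v (c i) ≠ 0 := (Valuation.ne_zero_iff v).2 hci
    refine key hi0 hip (inv_mem (hc i)) (inv_ne_zero hci) ?_
    rw [map_inv₀]
    apply eq_inv_of_mul_eq_one_left
    rw [mul_comm, ← map_pow, ← map_mul]
    exact e
  have hlam : v (ζ - 1) ≠ 0 := (Valuation.ne_zero_iff v).2 (sub_ne_zero.2 hζ1)
  have hvζ : v ζ ≤ 1 := (val_zeta_eq_one v hp.ne_zero hζ).le
  rw [← Finset.sum_sub_distrib]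
  refine Valuation.map_sum_lt v hlam ?_
  intro i hi
  have hip := Finset.mem_range.1 hi
  have e1 : c i * (ζ ^ j * ϖ) ^ i - c i * ϖ ^ i = (ζ ^ (j * i) - 1) * (c i * ϖ ^ i) := by
    rw [mul_pow, ← pow_mul]; ring
  rw [e1, map_mul]
  rcases Nat.eq_zero_or_pos i with rfl | hi0
  · rw [mul_zero, pow_zero, sub_self, map_zero, zero_mul]
    exact zero_lt_iff.2 hlam
  · have h1 := val_pow_sub_one_le v hvζ (j * i)
    have h2 := hterm i hi0 hip
    calc v (ζ ^ (j * i) - 1) * v (c i * ϖ ^ i) ≤ v (ζ - 1) * v (c i * ϖ ^ i) :=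
          mul_le_mul_left h1 _
      _ < v (ζ - 1) := mul_lt_of_lt_one_right (zero_lt_iff.2 hlam) h2

end Core

theorem tres (A : ValuationSubring Qb) (K0 : IntermediateField ℚ Qb) {p : ℕ} (hp : p.Prime)
    (ζ ϖ : Qb) (hζ : IsPrimitiveRoot ζ p) (hζK : ζ ∈ K0) (hϖ : ϖ ^ p ∈ K0) (hϖ0 : ϖ ≠ 0)
    (hnd : ∀ x ∈ K0, x ≠ 0 → A.valuation (ϖ ^ p) ≠ A.valuation x ^ p)
    (a : Qb) (haA : a ∈ A)
    (hfix : ∀ g : GQ, (∀ x ∈ K0, g x = x) → g ϖ = ϖ → g a = a)
    (g : GQ) (hg : ∀ x ∈ K0, g x = x) :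
    A.valuation (g a - a) < A.valuation (ζ - 1) := by
  have hcl : IsAlgClosure ℚ Qb :=
    (inferInstance : @IsAlgClosure ℚ (AlgebraicClosure ℚ) _ _ (AlgebraicClosure.instAlgebra ℚ) _)
  have hgal : IsGalois ℚ Qb := inferInstance
  -- step 1 : `a ∈ K0(ϖ)`
  have haL : a ∈ (IntermediateField.adjoin K0 {ϖ}).restrictScalars ℚ := by
    rw [← InfiniteGalois.fixedField_fixingSubgroup
      ((IntermediateField.adjoin K0 {ϖ}).restrictScalars ℚ), IntermediateField.mem_fixedField_iff]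
    intro h hh
    rw [IntermediateField.mem_fixingSubgroup_iff] at hh
    refine hfix h (fun x hx => hh x ?_) (hh ϖ ?_)
    · exact (IntermediateField.adjoin K0 {ϖ}).algebraMap_mem (⟨x, hx⟩ : K0)
    · exact IntermediateField.mem_adjoin_simple_self K0 ϖ
  -- step 2 : `a = ∑ c_i ϖ^i`
  set β : K0 := ⟨ϖ ^ p, hϖ⟩ with hβ
  have hmon : (Polynomial.X ^ p - Polynomial.C β : Polynomial K0).Monic :=
    Polynomial.monic_X_pow_sub_C β hp.ne_zero
  have hroot : Polynomial.aeval ϖ (Polynomial.X ^ p - Polynomial.C β : Polynomial K0) = 0 := by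
    rw [map_sub, map_pow, Polynomial.aeval_X, Polynomial.aeval_C]
    exact sub_self _
  have hint : IsIntegral K0 ϖ := ⟨_, hmon, hroot⟩
  have haL' : a ∈ (IntermediateField.adjoin K0 {ϖ}).toSubalgebra := haL
  rw [IntermediateField.adjoin_simple_toSubalgebra_of_isAlgebraic hint.isAlgebraic,
    Algebra.adjoin_singleton_eq_range_aeval] at haL'
  obtain ⟨f, hf⟩ := haL'
  have hf' : Polynomial.aeval ϖ f = a := hf
  set r : Polynomial K0 := f %ₘ (Polynomial.X ^ p - Polynomial.C β) with hr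
  have hra : Polynomial.aeval ϖ r = a := by
    rw [hr, Polynomial.aeval_modByMonic_eq_self_of_root hroot, hf']
  have hdeg : r.natDegree < p := by
    have h1 := Polynomial.natDegree_modByMonic_lt f hmon (by
      intro h
      have h2 := congrArg Polynomial.natDegree h
      rw [Polynomial.natDegree_X_pow_sub_C, Polynomial.natDegree_one] at h2
      exact hp.ne_zero h2)
    rwa [Polynomial.natDegree_X_pow_sub_C] at h1
  have hsum : a = ∑ i ∈ Finset.range p, ((r.coeff i : K0) : Qb) * ϖ ^ i := by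
    rw [← hra, Polynomial.aeval_eq_sum_range' hdeg]
    rfl
  -- step 3 : `g ϖ = ζ ^ j * ϖ`
  have hgβ : g (ϖ ^ p) = ϖ ^ p := hg _ hϖ
  have hone : (g ϖ / ϖ) ^ p = 1 := by
    rw [div_pow, ← map_pow, hgβ, div_self (pow_ne_zero _ hϖ0)]
  have : NeZero p := ⟨hp.ne_zero⟩
  obtain ⟨j, _, hj⟩ := hζ.eq_pow_of_pow_eq_one hone
  have hgϖ : g ϖ = ζ ^ j * ϖ := by
    rw [hj, div_mul_cancel₀ _ hϖ0]
  have hga : g a = ∑ i ∈ Finset.range p, ((r.coeff i : K0) : Qb) * (ζ ^ j * ϖ) ^ i := by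
    rw [hsum, map_sum]
    refine Finset.sum_congr rfl fun i _ => ?_
    rw [map_mul, map_pow, hgϖ, hg _ (r.coeff i).2]
  have hcore := tres_core A.valuation K0.toSubfield hp ζ ϖ hζ.pow_eq_one (hζ.ne_one hp.one_lt)
    hϖ hϖ0 hnd (fun i => ((r.coeff i : K0) : Qb)) (fun i => (r.coeff i).2)
    (by rw [← hsum]; exact (A.valuation_le_one_iff a).mpr haA) j
  rw [← hga, ← hsum] at hcore
  exact hcore

end Fermat.Agent.S44.ESide
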